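import Fermat.Agent.H39.MW.ModDefs

/-!
# P-MW / Block E (row 697 MW-MOD, sub-architect helper39): INTERFACE STATEMENTS

`ModularDatumStatement` (H92) is assembled (row MW-E-ASM, helper39) from the Props below.
Definitions: `Fermat.Agent.H39.MW.ModDefs` (`holo`, `poleSpace`, `FB`, `emb`, `ratHolo`,
`embHolo`, `ratPole`, `CuspSetting`).

| row        | Prop                     | content                                                        |
|------------|--------------------------|----------------------------------------------------------------|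
| MW-E-FIN   | `FiniteOverStatement`    | `F / K(x)` finite, `t` transcendental ⟹ `F / K(t)` finite      |
| MW-E-FIX   | `FixedStatement`         | Galois-fixed elements of `F̄` come from `F₀`                    |
| MW-E-DESC  | `DescentStatement`       | finite-dim. Galois-stable subspaces are spanned by fixed vectors|
| MW-E-HOLO  | `HoloDedekindStatement`  | `R̄ = holo P₀` is Dedekind, primes = places `≠ P₀`              |
| MW-E-RR    | `HoloRRStatement`        | Riemann-Roch for ideals of `R̄`                                 |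
| MW-E-BC    | `BaseChangeStatement`    | `ℚ̄ ⊗ R ≃ R̄`, compatible with the pole filtrations             |
| MW-E-RDED  | `RatDedekindStatement`   | `R` is Dedekind, of finite type, not a field                   |
| MW-E-DICT  | `DictionaryStatement`    | `Cl(R) ≃ Pic⁰(F̄)^{G_ℚ}`                                        |
| MW-E-CUSP  | `CuspModularStatement`   | `CuspSetting` for `modularFunctionFieldFull N`                 |
-/

set_option autoImplicit false

noncomputable section

open AlgebraicCurve ModularCurve TensorProduct Module IsDedekindDomain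

namespace Fermat.Agent.H39.MW

open Fermat.Agent.H92.MW

/-! ## General field theory -/

/-- **MW-E-FIN.**  If `F` is finite over `K(x)` and `t ∈ F` is transcendental over `K`, then `F`
is finite over `K(t)`. -/
def FiniteOverStatement : Prop :=
  ∀ (K F : Type) [Field K] [Field F] [Algebra K F] (x t : F),
    FiniteDimensional ↥(IntermediateField.adjoin K ({x} : Set F)) F → Transcendental K t →
    FiniteDimensional ↥(IntermediateField.adjoin K ({t} : Set F)) F

/-! ## General function fields over an algebraically closed field of characteristic zero -/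

/-- **MW-E-HOLO.**  The ring `R̄ = holo P₀` of functions regular outside `P₀` is a Dedekind domain
with fraction field `F`, and `Place.ofHeightOneSpectrum` is a bijection from its maximal ideals
onto the places `≠ P₀`. -/
def HoloDedekindStatement : Prop :=
  ∀ (K F : Type) [Field K] [Field F] [Algebra K F] [IsAlgClosed K] [CharZero K],
    Fermat.Agent.H58.RRHyp K F →
    ∀ x : F, Transcendental K x → FiniteDimensional ↥(IntermediateField.adjoin K ({x} : Set F)) F →
    ∀ P₀ : Place K F,
      ∃ (_ : IsDedekindDomain ↥(holo P₀)) (_ : IsFractionRing ↥(holo P₀) F),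
        ¬ IsField ↥(holo P₀) ∧
        (∀ w : HeightOneSpectrum ↥(holo P₀), Place.ofHeightOneSpectrum (K := K) (F := F) w ≠ P₀) ∧
        (∀ v : Place K F, v ≠ P₀ →
          ∃ w : HeightOneSpectrum ↥(holo P₀), Place.ofHeightOneSpectrum (K := K) (F := F) w = v) ∧
        Function.Injective
          (fun w : HeightOneSpectrum ↥(holo P₀) => Place.ofHeightOneSpectrum (K := K) (F := F) w)

/-- **MW-E-RR.**  Riemann-Roch for `L(m P₀ - D_I)`, `I` a nonzero ideal of `R̄`: for `m` large,
`dim (I ∩ L(m P₀)) + dim R̄ / I + g = m + 1`. -/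
def HoloRRStatement : Prop :=
  ∀ (K F : Type) [Field K] [Field F] [Algebra K F] [IsAlgClosed K] [CharZero K],
    Fermat.Agent.H58.RRHyp K F →
    ∀ x : F, Transcendental K x → FiniteDimensional ↥(IntermediateField.adjoin K ({x} : Set F)) F →
    ∀ P₀ : Place K F,
      ∃ m₀ : ℕ, ∀ I : Ideal ↥(holo P₀), I ≠ ⊥ →
        Module.Finite K (↥(holo P₀) ⧸ I) ∧
        ∀ m : ℕ, finrank K (↥(holo P₀) ⧸ I) + m₀ ≤ m →
          finrank K ↥(poleSpace P₀ m ⊓ I.restrictScalars K) + finrank K (↥(holo P₀) ⧸ I)
            + genusFF K F = m + 1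

/-! ## The Laurent setting: Galois descent -/

/-- **MW-E-FIX.**  An element of `F̄ = ℚ̄ F₀` fixed by the coefficientwise action of
`Gal(ℚ̄ / ℚ)` lies in (the image of) `F₀`. -/
def FixedStatement : Prop :=
  ∀ (F₀ : IntermediateField ℚ (LaurentSeries ℚ)) (f : FB F₀),
    (∀ σ : QQbar ≃ₐ[ℚ] QQbar, arithmeticGalois F₀ σ • f = f) → ∃ f₀ : ↥F₀, emb F₀ f₀ = f

/-- **MW-E-DESC.**  A finite-dimensional `ℚ̄`-subspace of `F̄` which is stable under the
coefficientwise Galois action is spanned by its Galois-fixed vectors. -/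
def DescentStatement : Prop :=
  ∀ (F₀ : IntermediateField ℚ (LaurentSeries ℚ)) (V : Submodule QQbar (FB F₀)),
    Module.Finite QQbar ↥V →
    (∀ (σ : QQbar ≃ₐ[ℚ] QQbar) (f : FB F₀), f ∈ V → arithmeticGalois F₀ σ • f ∈ V) →
    V = Submodule.span QQbar
      {f : FB F₀ | f ∈ V ∧ ∀ σ : QQbar ≃ₐ[ℚ] QQbar, arithmeticGalois F₀ σ • f = f}

/-! ## The Laurent setting: the rational ring `R` -/

/-- **MW-E-BC.**  `ℚ̄ ⊗_ℚ R ≃ R̄` (geometric normality), compatibly with the pole-order
filtrations. -/
def BaseChangeStatement : Prop :=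
  ∀ (F₀ : IntermediateField ℚ (LaurentSeries ℚ)) (P₀ : Place QQbar (FB F₀)),
    CuspSetting F₀ P₀ →
    ∃ Θ : QQbar ⊗[ℚ] ↥(ratHolo P₀) ≃+* ↥(holo P₀),
      (∀ (a : QQbar) (f : ↥(ratHolo P₀)),
        ((Θ (a ⊗ₜ[ℚ] f) : ↥(holo P₀)) : FB F₀) = algebraMap QQbar (FB F₀) a * emb F₀ (f : ↥F₀)) ∧
      ∀ (m : ℕ) (x : QQbar ⊗[ℚ] ↥(ratHolo P₀)),
        x ∈ (ratPole P₀ m).baseChange QQbar ↔ Θ x ∈ poleSpace P₀ m

/-- **MW-E-RDED.**  `R` is a Dedekind domain, a `ℚ`-algebra of finite type, and not a field. -/
def RatDedekindStatement : Prop :=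
  ∀ (F₀ : IntermediateField ℚ (LaurentSeries ℚ)) (P₀ : Place QQbar (FB F₀)),
    CuspSetting F₀ P₀ →
    IsDedekindDomain ↥(ratHolo P₀) ∧ Algebra.FiniteType ℚ ↥(ratHolo P₀) ∧
      ¬ IsField ↥(ratHolo P₀)

/-- **MW-E-DICT.**  The dictionary: the class group of `R` is the group of Galois-fixed points
of `Pic⁰(F̄)`. -/
def DictionaryStatement : Prop :=
  ∀ (F₀ : IntermediateField ℚ (LaurentSeries ℚ)) (P₀ : Place QQbar (FB F₀)),
    CuspSetting F₀ P₀ →
    Nonempty (Additive (ClassGroup ↥(ratHolo P₀)) ≃+
      ↥(FixedPoints.addSubgroup (QQbar ≃ₐ[ℚ] QQbar) (Pic0 QQbar (FB F₀))))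

/-- **MW-E-CUSP.**  The standing hypotheses hold for `X₀(N)`. -/
def CuspModularStatement : Prop :=
  ∀ (N : ℕ) [NeZero N],
    ∃ P₀ : Place QQbar (FB (modularFunctionFieldFull N)),
      CuspSetting (modularFunctionFieldFull N) P₀

/-- **MW-E-ASM** (the assembly contract of Block E). -/
def BlockEAssemblyStatement : Prop :=
  HoloDedekindStatement → HoloRRStatement → BaseChangeStatement → RatDedekindStatement →
    DictionaryStatement → CuspModularStatement → ModularDatumStatement

end Fermat.Agent.H39.MW

end
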