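import Fermat.Agent.H39.MW.ModBar

/-!
# P-MW / Block E (row 883 MW-E-ASM, helper39): the assembly of `ModularDatumStatement`

`blockEAssembly'` : `HoloDedekindStatement → BaseChangeStatement → RatDedekindStatement →
DictionaryStatement → CuspModularStatement → ModularDatumStatement`
(Riemann-Roch for the ideals of `ℚ̄ ⊗ R` is helper58's `Fermat.Agent.H58.mwe_bar_rr`, so
`HoloRRStatement` is not needed), and `blockEAssembly : BlockEAssemblyStatement`.
-/

set_option autoImplicit false
set_option linter.style.haveILetI false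

noncomputable section

open AlgebraicCurve ModularCurve TensorProduct Module

namespace Fermat.Agent.H39.MW

open Fermat.Agent.H92.MW

set_option maxHeartbeats 1600000 in
/-- The datum attached to a cusp setting. -/
theorem exists_datum_of_cuspSetting (hA1 : HoloDedekindStatement) (hB : BaseChangeStatement)
    (hC : RatDedekindStatement)
    (F₀ : IntermediateField ℚ (LaurentSeries ℚ)) (P₀ : Place QQbar (FB F₀))
    (hS : CuspSetting F₀ P₀) :
    ∃ (_ : IsDedekindDomain ↥(ratHolo P₀)), Nonempty (MWDatum ↥(ratHolo P₀)) := by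
  obtain ⟨hded, hft, hnf⟩ := hC F₀ P₀ hS
  obtain ⟨Θ, hΘ, hΘW⟩ := hB F₀ P₀ hS
  obtain ⟨x, -, -, hxb, hxbfin⟩ := hS.sep
  obtain ⟨hDb, -, -, -, -, -⟩ := hA1 QQbar (FB F₀) hS.rr _ hxb hxbfin P₀
  obtain ⟨c, hc⟩ := hS.rr.exists_nat_degree_bound
  have hfin := abs_W_fin hS.rr P₀ (barPhi Θ hΘ) (barPhi_injective Θ hΘ) (barPhi_range Θ hΘ)
    (ratPole P₀) (barPhi_W Θ hΘ hΘW)
  have hrank := abs_W_finrank hS.rr P₀ c hc (barPhi Θ hΘ) (barPhi_injective Θ hΘ)
    (barPhi_range Θ hΘ) (ratPole P₀) (barPhi_W Θ hΘ hΘW)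
  obtain ⟨t, e, he, ht, ht'⟩ := abs_exists_t (ratPole P₀) (genusFF QQbar (FB F₀)) c
    (ratPole_mono P₀) (ratPole_zero hS) hrank
  refine ⟨hded, ⟨?_⟩⟩
  exact
    { W := ratPole P₀
      g := genusFF QQbar (FB F₀)
      m₀ := c
      t := t
      e := e
      notField := hnf
      finiteType := hft
      W_mono := ratPole_mono P₀
      W_zero := ratPole_zero hS
      W_mul := ratPole_mul P₀
      W_exhaust := ratPole_exhaust P₀
      W_fin := hfin
      W_finrank := hrank
      W_step := fun m => by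
        haveI := hfin (m + 1)
        exact ratPole_step P₀ m
      e_pos := he
      t_mem := ht
      t_not_mem := ht'
      bar_dedekind := isDedekindDomain_of_ringEquiv Θ.symm
      bar_val := Fermat.Agent.H58.mwe_bar_val P₀ (barPhi Θ hΘ) (barPhi_range Θ hΘ)
        (fun m => (ratPole P₀ m).baseChange QQbar) (barPhi_W Θ hΘ hΘW)
      bar_rr := Fermat.Agent.H58.mwe_bar_rr hS.rr P₀ c hc (barPhi Θ hΘ) (barPhi_injective Θ hΘ)
        (barPhi_range Θ hΘ) (fun m => (ratPole P₀ m).baseChange QQbar) (barPhi_W Θ hΘ hΘW) }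

/-- **Block E assembly** (without `HoloRRStatement`). -/
theorem blockEAssembly' (hA1 : HoloDedekindStatement) (hB : BaseChangeStatement)
    (hC : RatDedekindStatement) (hD : DictionaryStatement) (hE : CuspModularStatement) :
    ModularDatumStatement := by
  intro N _ _ _
  obtain ⟨P₀, hS⟩ := hE N
  obtain ⟨hded, ⟨C⟩⟩ := exists_datum_of_cuspSetting hA1 hB hC _ P₀ hS
  exact ⟨↥(ratHolo P₀), inferInstance, inferInstance, hded, C, hD _ P₀ hS⟩

/-- **MW-E-ASM.** -/
theorem blockEAssembly : BlockEAssemblyStatement :=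
  fun hA1 _ hB hC hD hE => blockEAssembly' hA1 hB hC hD hE

end Fermat.Agent.H39.MW

end
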