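import Fermat.Agent.H39.MW.ModLaurent
import Fermat.Agent.H58.MWE.BarRR

/-!
# P-MW / Block E (row 883 MW-E-ASM, helper39): the geometric fields of the datum

From helper58's abstract core (`Fermat.Agent.H58.mwe_bar_rr`, `mwe_bar_val`, `mwe_finite_W`,
`mwe_finrank_W`) applied to `A := ℚ̄ ⊗ R`, `φ := val ∘ Θ`, `W m := (ratPole m).baseChange ℚ̄`.
-/

set_option autoImplicit false
set_option linter.style.haveILetI false
set_option linter.unusedSectionVars false

noncomputable section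

open AlgebraicCurve ModularCurve TensorProduct Module

namespace Fermat.Agent.H39.MW

open Fermat.Agent.H92.MW

/-! ## Transfer of `IsDedekindDomain` along a ring isomorphism -/

theorem isDedekindDomain_of_ringEquiv {A B : Type*} [CommRing A] [CommRing B] (e : A ≃+* B)
    [IsDedekindDomain A] : IsDedekindDomain B := by
  haveI : IsDomain B := e.symm.toMulEquiv.isDomain A
  haveI : IsNoetherianRing B := isNoetherianRing_of_ringEquiv A e
  haveI : Ring.DimensionLEOne B := Ring.DimensionLEOne.of_ringEquiv e.symm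
  haveI : IsIntegrallyClosed B := IsIntegrallyClosed.of_equiv e
  haveI : IsDedekindRing B := { }
  infer_instance

/-! ## Abstract descent of the dimension count from `ℚ̄` to `ℚ` -/

section Abstract

variable {R : Type} [CommRing R] [Algebra ℚ R] {F : Type} [Field F] [Algebra QQbar F]
  (h : Fermat.Agent.H58.RRHyp QQbar F) (P₀ : Place QQbar F)
  (c : ℕ)
  (hc : ∀ D : Divisor QQbar F, (c : ℤ) ≤ Divisor.degree D →
    finrank QQbar (H1 D) = 0)
  (φ : QQbar ⊗[ℚ] R →ₐ[QQbar] F) (hφ : Function.Injective φ)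
  (hrange : ∀ f : F, f ∈ φ.range ↔ ∀ v : Place QQbar F, v ≠ P₀ → v.adicValuation f ≤ 1)
  (W : ℕ → Submodule ℚ R)
  (hW : ∀ (m : ℕ) (a : QQbar ⊗[ℚ] R), a ∈ (W m).baseChange QQbar ↔
    φ a ∈ riemannRochSpace (Finsupp.single P₀ (m : ℤ)))

include h hφ hrange hW in
theorem abs_W_fin (m : ℕ) : Module.Finite ℚ ↥(W m) := by
  haveI : Module.Finite QQbar ↥((W m).baseChange QQbar) :=
    Fermat.Agent.H58.mwe_finite_W h P₀ φ hφ hrange (fun m => (W m).baseChange QQbar) hW m
  haveI : Module.Finite QQbar (QQbar ⊗[ℚ] ↥(W m)) :=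
    Module.Finite.equiv (Submodule.toBaseChange.toLinearEquiv QQbar (W m)).symm
  exact Module.Finite.of_finite_tensorProduct_of_faithfullyFlat QQbar

include h hc hφ hrange hW in
theorem abs_W_finrank (m : ℕ) (hm : c ≤ m) : finrank ℚ ↥(W m) + genusFF QQbar F = m + 1 := by
  have h1 := Fermat.Agent.H58.mwe_finrank_W h P₀ c hc φ hφ hrange
    (fun m => (W m).baseChange QQbar) hW m hm
  have h2 : finrank QQbar ↥((W m).baseChange QQbar) = finrank ℚ ↥(W m) := by
    rw [← (Submodule.toBaseChange.toLinearEquiv QQbar (W m)).finrank_eq,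
      Module.finrank_baseChange]
  simp only [h2] at h1
  exact h1

end Abstract

/-! ## Existence of `t` -/

section ExistsT

variable {R : Type} [CommRing R] [Algebra ℚ R] (W : ℕ → Submodule ℚ R) (g m₀ : ℕ)

theorem abs_exists_t (hmono : Monotone W) (hzero : W 0 = 1)
    (hrank : ∀ m : ℕ, m₀ ≤ m → finrank ℚ ↥(W m) + g = m + 1) :
    ∃ (t : R) (e : ℕ), 0 < e ∧ t ∈ W e ∧ t ∉ W (e - 1) := by
  classical
  have h1 : finrank ℚ ↥(W 0) ≤ 1 := by
    rw [hzero, Submodule.one_eq_span]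
    exact (finrank_span_le_card ({1} : Set R)).trans (by simp)
  have h2 := hrank (m₀ + g + 1) (by omega)
  have hne : W 0 ≠ W (m₀ + g + 1) := by
    intro heq
    rw [heq] at h1
    omega
  have hlt : W 0 < W (m₀ + g + 1) := lt_of_le_of_ne (hmono (Nat.zero_le _)) hne
  obtain ⟨t, ht, ht0⟩ := SetLike.exists_of_lt hlt
  have hex : ∃ n, t ∈ W n := ⟨_, ht⟩
  refine ⟨t, Nat.find hex, ?_, Nat.find_spec hex, ?_⟩
  · rcases Nat.eq_zero_or_pos (Nat.find hex) with h0 | h0
    · exfalso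
      have := Nat.find_spec hex
      rw [h0] at this
      exact ht0 this
    · exact h0
  · have hpos : 0 < Nat.find hex := by
      rcases Nat.eq_zero_or_pos (Nat.find hex) with h0 | h0
      · exfalso
        have := Nat.find_spec hex
        rw [h0] at this
        exact ht0 this
      · exact h0
    exact Nat.find_min hex (by omega)

end ExistsT

/-! ## The concrete setting -/

section Concrete

variable {F₀ : IntermediateField ℚ (LaurentSeries ℚ)} {P₀ : Place QQbar (FB F₀)}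

/-- `φ := val ∘ Θ : ℚ̄ ⊗ R → F̄`. -/
def barPhi (Θ : QQbar ⊗[ℚ] ↥(ratHolo P₀) ≃+* ↥(holo P₀))
    (hΘ : ∀ (a : QQbar) (f : ↥(ratHolo P₀)),
      ((Θ (a ⊗ₜ[ℚ] f) : ↥(holo P₀)) : FB F₀) =
        algebraMap QQbar (FB F₀) a * emb F₀ (f : ↥F₀)) :
    QQbar ⊗[ℚ] ↥(ratHolo P₀) →ₐ[QQbar] FB F₀ :=
  { ((holo P₀).val : ↥(holo P₀) →+* FB F₀).comp (Θ : QQbar ⊗[ℚ] ↥(ratHolo P₀) →+* ↥(holo P₀)) with
    commutes' := fun a => by
      show ((Θ (algebraMap QQbar (QQbar ⊗[ℚ] ↥(ratHolo P₀)) a) : ↥(holo P₀)) : FB F₀) = _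
      rw [Algebra.TensorProduct.algebraMap_apply, hΘ]
      simp }

variable (Θ : QQbar ⊗[ℚ] ↥(ratHolo P₀) ≃+* ↥(holo P₀))
  (hΘ : ∀ (a : QQbar) (f : ↥(ratHolo P₀)),
    ((Θ (a ⊗ₜ[ℚ] f) : ↥(holo P₀)) : FB F₀) = algebraMap QQbar (FB F₀) a * emb F₀ (f : ↥F₀))
  (hΘW : ∀ (m : ℕ) (x : QQbar ⊗[ℚ] ↥(ratHolo P₀)),
    x ∈ (ratPole P₀ m).baseChange QQbar ↔ Θ x ∈ poleSpace P₀ m)

theorem barPhi_apply (x : QQbar ⊗[ℚ] ↥(ratHolo P₀)) :
    barPhi Θ hΘ x = ((Θ x : ↥(holo P₀)) : FB F₀) := rfl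

theorem barPhi_injective : Function.Injective (barPhi Θ hΘ) := by
  intro x y hxy
  rw [barPhi_apply, barPhi_apply] at hxy
  exact Θ.injective (Subtype.ext hxy)

theorem barPhi_range (f : FB F₀) :
    f ∈ (barPhi Θ hΘ).range ↔
      ∀ v : Place QQbar (FB F₀), v ≠ P₀ → v.adicValuation f ≤ 1 := by
  constructor
  · rintro ⟨x, rfl⟩ v hv
    exact v.adicValuation_le_one_of_mem ((Θ x).2 v hv)
  · intro hf
    have hmem : f ∈ holo P₀ := fun v hv =>
      (Fermat.Agent.H23.mem_iff_ord v).mpr (v.adicValuation_le_one_iff.mp (hf v hv))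
    refine ⟨Θ.symm ⟨f, hmem⟩, ?_⟩
    show ((Θ (Θ.symm ⟨f, hmem⟩) : ↥(holo P₀)) : FB F₀) = f
    rw [RingEquiv.apply_symm_apply]

include hΘW in
theorem barPhi_W (m : ℕ) (a : QQbar ⊗[ℚ] ↥(ratHolo P₀)) :
    a ∈ (ratPole P₀ m).baseChange QQbar ↔
      barPhi Θ hΘ a ∈ riemannRochSpace (Finsupp.single P₀ (m : ℤ)) := by
  rw [hΘW m a, mem_poleSpace, mem_riemannRochSpace_iff, barPhi_apply]
  constructor
  · intro ha v
    by_cases hv : v = P₀
    · subst hv
      rw [Finsupp.single_eq_same]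
      exact ha
    · rw [Finsupp.single_eq_of_ne hv, neg_zero]
      exact (Fermat.Agent.H23.mem_iff_ord v).mp ((Θ a).2 v hv)
  · intro ha
    have := ha P₀
    rwa [Finsupp.single_eq_same] at this

end Concrete

/-! ## `W 0 = ℚ` -/

section Zero

variable {F₀ : IntermediateField ℚ (LaurentSeries ℚ)} {P₀ : Place QQbar (FB F₀)}

theorem coe_algebraMap_FB (c : QQbar) :
    ((algebraMap QQbar (FB F₀) c : FB F₀) : LaurentSeries QQbar) = HahnSeries.single 0 c := by
  rw [← algebraMap_laurentSeries_eq_single]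
  rfl

theorem coe_algebraMap_F0 (c : ℚ) :
    ((algebraMap ℚ ↥F₀ c : ↥F₀) : LaurentSeries ℚ) = HahnSeries.single 0 c := by
  rw [← algebraMap_laurentSeries_eq_single]
  exact DFunLike.congr_fun (RingHom.ext_rat
    ((F₀.val : ↥F₀ →+* LaurentSeries ℚ).comp (algebraMap ℚ ↥F₀))
    (algebraMap ℚ (LaurentSeries ℚ))) c

theorem ratPole_zero (hS : CuspSetting F₀ P₀) : ratPole P₀ 0 = 1 := by
  ext f
  rw [Submodule.mem_one]
  constructor
  · intro hf
    have h0 : emb F₀ (f : ↥F₀) ∈ riemannRochSpace (0 : Divisor QQbar (FB F₀)) := by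
      rw [mem_riemannRochSpace_iff]
      intro v
      by_cases hv : v = P₀
      · subst hv
        by_cases hz : emb F₀ (f : ↥F₀) = 0
        · exact Or.inl hz
        · right
          rw [hS.cusp]
          simp only [Finsupp.coe_zero, Pi.zero_apply, neg_zero]
          refine laurent_le_order (fun h => hz (Subtype.ext h)) ?_
          intro k hk
          rw [coe_emb, coeffEmb_coeff, hf k (by simpa using hk), map_zero]
      · simpa using (Fermat.Agent.H23.mem_iff_ord v).mp (f.2 v hv)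
    haveI := hS.rr.principal
    obtain ⟨c, hc⟩ := (Fermat.Agent.H58.rr_mem_zero_iff hS.rr.deg_one P₀).mp h0
    have hc0 : c = algebraMap ℚ QQbar ((((f : ↥F₀) : LaurentSeries ℚ)).coeff 0) := by
      have h1 := congrArg (fun x : FB F₀ => ((x : LaurentSeries QQbar)).coeff 0) hc
      simp only [coe_emb, coeffEmb_coeff, coe_algebraMap_FB, HahnSeries.coeff_single_same] at h1
      exact h1.symm
    refine ⟨(((f : ↥F₀) : LaurentSeries ℚ)).coeff 0, ?_⟩
    apply Subtype.ext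
    apply (emb F₀).injective
    rw [hc, hc0, ← emb_algebraMap]
    rfl
  · rintro ⟨c, rfl⟩ k hk
    show ((algebraMap ℚ ↥F₀ c : ↥F₀) : LaurentSeries ℚ).coeff k = 0
    rw [coe_algebraMap_F0]
    exact HahnSeries.coeff_single_of_ne (by simp at hk; omega)

end Zero

end Fermat.Agent.H39.MW

end
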