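import Fermat.Agent.H92.MW.ModInterfaces
import Fermat.Agent.H53.SS2.InvRepGalois

/-!
# P-MW / Block E (row 697 MW-MOD, sub-architect helper39): DEFINITIONS

General function field `F / K` with a place `P₀` ("the point at infinity"):
* `holo P₀ : Subalgebra K F`          — functions regular outside `P₀`   (`R̄`);
* `poleSpace P₀ m : Submodule K (holo P₀)` — pole of order `≤ m` at `P₀`  (`L(m P₀)`).

Laurent setting `F₀ ⊆ ℚ((q))`, `F̄ = FB F₀ = ℚ̄ F₀ ⊆ ℚ̄((q))`, `P₀` a place of `F̄`: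
* `emb F₀ : F₀ →+* F̄`                  — the coefficientwise embedding;
* `ratHolo F₀ P₀ : Subalgebra ℚ F₀`   — `R = {f ∈ F₀ | emb f ∈ holo P₀}`;
* `ratPole F₀ P₀ m : Submodule ℚ R`   — `W m = {f ∈ R | q-order ≥ -m}`;
* `CuspSetting F₀ P₀`                  — the standing hypotheses.
-/

set_option autoImplicit false

noncomputable section

open AlgebraicCurve ModularCurve TensorProduct Module

namespace Fermat.Agent.H39.MW

open Fermat.Agent.H92.MW

/-! ## General function fields -/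

section General

variable {K F : Type} [Field K] [Field F] [Algebra K F]

/-- `R̄`: the functions regular outside `P₀`. -/
def holo (P₀ : Place K F) : Subalgebra K F where
  carrier := {f | ∀ v : Place K F, v ≠ P₀ → f ∈ v.toValuationSubring}
  mul_mem' := fun ha hb v hv => mul_mem (ha v hv) (hb v hv)
  add_mem' := fun ha hb v hv => add_mem (ha v hv) (hb v hv)
  algebraMap_mem' := fun c v _ => v.algebraMap_mem' c

theorem mem_holo {P₀ : Place K F} {f : F} :
    f ∈ holo P₀ ↔ ∀ v : Place K F, v ≠ P₀ → f ∈ v.toValuationSubring := Iff.rfl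

/-- `L(m P₀)`, as a subspace of `R̄`: pole of order at most `m` at `P₀`. -/
def poleSpace (P₀ : Place K F) (m : ℕ) : Submodule K ↥(holo P₀) where
  carrier := {f | (f : F) = 0 ∨ -(m : ℤ) ≤ P₀.ord (f : F)}
  zero_mem' := Or.inl rfl
  add_mem' := by
    intro a b ha hb
    by_cases hab : ((a : F) + (b : F)) = 0
    · exact Or.inl hab
    · exact Or.inr (Fermat.Agent.H23.ord_add_ge P₀ hab _ ha hb)
  smul_mem' := by
    intro c a ha
    by_cases hc : c = 0
    · left
      rw [hc, zero_smul]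
      rfl
    rcases ha with ha | ha
    · left
      show c • (a : F) = 0
      rw [ha, smul_zero]
    · right
      show -(m : ℤ) ≤ P₀.ord (c • (a : F))
      rw [Fermat.Agent.H58.rr_smul_ord P₀ hc]
      exact ha

theorem mem_poleSpace {P₀ : Place K F} {m : ℕ} {f : ↥(holo P₀)} :
    f ∈ poleSpace P₀ m ↔ (f : F) = 0 ∨ -(m : ℤ) ≤ P₀.ord (f : F) := Iff.rfl

end General

/-! ## The Laurent setting -/

section Laurent

variable (F₀ : IntermediateField ℚ (LaurentSeries ℚ))

/-- `F̄ = ℚ̄ · F₀ ⊆ ℚ̄((q))`. -/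
abbrev FB : Type := ↥(laurentBaseChange QQbar F₀)

/-- The coefficientwise embedding `F₀ → F̄`. -/
def emb : ↥F₀ →+* FB F₀ where
  toFun x := ⟨coeffEmb QQbar (x : LaurentSeries ℚ), coeffEmb_mem_laurentBaseChange QQbar x.2⟩
  map_one' := Subtype.ext (map_one (coeffEmb QQbar))
  map_mul' _ _ := Subtype.ext (map_mul (coeffEmb QQbar) _ _)
  map_zero' := Subtype.ext (map_zero (coeffEmb QQbar))
  map_add' _ _ := Subtype.ext (map_add (coeffEmb QQbar) _ _)

@[simp] theorem coe_emb (x : ↥F₀) :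
    ((emb F₀ x : FB F₀) : LaurentSeries QQbar) = coeffEmb QQbar (x : LaurentSeries ℚ) := rfl

theorem emb_algebraMap (c : ℚ) :
    emb F₀ (algebraMap ℚ ↥F₀ c) = algebraMap QQbar (FB F₀) (algebraMap ℚ QQbar c) :=
  DFunLike.congr_fun (RingHom.ext_rat ((emb F₀).comp (algebraMap ℚ ↥F₀))
    ((algebraMap QQbar (FB F₀)).comp (algebraMap ℚ QQbar))) c

variable {F₀}

/-- `R`: the functions of `F₀` regular outside the cusp `P₀`. -/
def ratHolo (P₀ : Place QQbar (FB F₀)) : Subalgebra ℚ ↥F₀ where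
  carrier := {f | emb F₀ f ∈ holo P₀}
  mul_mem' := fun {a b} ha hb => by
    show emb F₀ (a * b) ∈ holo P₀
    rw [map_mul]
    exact mul_mem ha hb
  add_mem' := fun {a b} ha hb => by
    show emb F₀ (a + b) ∈ holo P₀
    rw [map_add]
    exact add_mem ha hb
  algebraMap_mem' := fun c => by
    show emb F₀ (algebraMap ℚ ↥F₀ c) ∈ holo P₀
    rw [emb_algebraMap]
    exact (holo P₀).algebraMap_mem _

theorem mem_ratHolo {P₀ : Place QQbar (FB F₀)} {f : ↥F₀} :
    f ∈ ratHolo P₀ ↔ emb F₀ f ∈ holo P₀ := Iff.rfl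

/-- The ring homomorphism `R → R̄`. -/
def embHolo (P₀ : Place QQbar (FB F₀)) : ↥(ratHolo P₀) →+* ↥(holo P₀) where
  toFun f := ⟨emb F₀ (f : ↥F₀), f.2⟩
  map_one' := Subtype.ext (by simp)
  map_mul' _ _ := Subtype.ext (by simp)
  map_zero' := Subtype.ext (by simp)
  map_add' _ _ := Subtype.ext (by simp)

@[simp] theorem coe_embHolo (P₀ : Place QQbar (FB F₀)) (f : ↥(ratHolo P₀)) :
    ((embHolo P₀ f : ↥(holo P₀)) : FB F₀) = emb F₀ (f : ↥F₀) := rfl

/-- `W m`: the functions of `R` with a pole of order at most `m` at the cusp (`q`-order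
`≥ -m`). -/
def ratPole (P₀ : Place QQbar (FB F₀)) (m : ℕ) : Submodule ℚ ↥(ratHolo P₀) where
  carrier := {f | ∀ k : ℤ, k < -(m : ℤ) → (((f : ↥F₀) : LaurentSeries ℚ)).coeff k = 0}
  zero_mem' := fun k _ => rfl
  add_mem' := fun {a b} ha hb k hk => by
    show (((a : ↥F₀) : LaurentSeries ℚ) + ((b : ↥F₀) : LaurentSeries ℚ)).coeff k = 0
    rw [HahnSeries.coeff_add, ha k hk, hb k hk, add_zero]
  smul_mem' := fun c a ha k hk => by
    show (c • ((a : ↥F₀) : LaurentSeries ℚ)).coeff k = 0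
    rw [HahnSeries.coeff_smul, ha k hk, smul_zero]

theorem mem_ratPole {P₀ : Place QQbar (FB F₀)} {m : ℕ} {f : ↥(ratHolo P₀)} :
    f ∈ ratPole P₀ m ↔
      ∀ k : ℤ, k < -(m : ℤ) → (((f : ↥F₀) : LaurentSeries ℚ)).coeff k = 0 := Iff.rfl

variable (F₀)

/-- **Standing hypotheses**: Riemann's theorem for `F̄`, the place `P₀` is the cusp (its `ord`
is the `q`-order), and `F₀`, `F̄` are finite over a rational function field. -/
structure CuspSetting (P₀ : Place QQbar (FB F₀)) : Prop where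
  rr : Fermat.Agent.H58.RRHyp QQbar (FB F₀)
  cusp : ∀ f : FB F₀, P₀.ord f = ((f : FB F₀) : LaurentSeries QQbar).order
  sep : ∃ x : ↥F₀, Transcendental ℚ x ∧
    FiniteDimensional ↥(IntermediateField.adjoin ℚ ({x} : Set ↥F₀)) ↥F₀ ∧
    Transcendental QQbar (emb F₀ x) ∧
    FiniteDimensional ↥(IntermediateField.adjoin QQbar ({emb F₀ x} : Set (FB F₀))) (FB F₀)

end Laurent

end Fermat.Agent.H39.MW

end
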