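import Fermat.Agent.H39.MW.ModAssembly
import Fermat.Agent.H77.MWHolo.Main
import Fermat.Agent.H47.MW.FiniteOver
import Fermat.Agent.H50.MW.BaseChange
import Fermat.Agent.H80.MW.Fixed
import Fermat.Agent.H27.MW.Descent
import Fermat.Agent.H2.MW.RatDedekindFinal
import Fermat.Agent.H1.MW.CuspModular

/-!
# P-MW / Block E (row 697 MW-MOD): `ModularDatumStatement` from the dictionary

All leaves of Block E except the dictionary (row 881 MW-E-DICT) are landed:
`FiniteOverStatement` (helper47), `FixedStatement` (helper80), `DescentStatement` (helper27),
`HoloDedekindStatement` (helper77), `BaseChangeStatement` (helper50), `RatDedekindStatement`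
(helper2), `CuspModularStatement` (helper1), Riemann-Roch for ideals (helper58).
-/

set_option autoImplicit false

noncomputable section

namespace Fermat.Agent.H39.MW

open Fermat.Agent.H92.MW

theorem holoDedekindStatement : HoloDedekindStatement :=
  Fermat.Agent.H77.holoDedekind Fermat.Agent.H47.MW.finiteOver

theorem baseChangeStatement : BaseChangeStatement :=
  Fermat.Agent.H50.baseChangeStatement Fermat.Agent.H80.MW.fixed
    Fermat.Agent.H27.MW.descentStatement

theorem ratDedekindStatement : RatDedekindStatement :=
  Fermat.Agent.H2.ratDedekind Fermat.Agent.H47.MW.finiteOver baseChangeStatement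

/-- **Block E modulo the dictionary.** -/
theorem modularDatum_of_dictionary (hD : DictionaryStatement) : ModularDatumStatement :=
  blockEAssembly' holoDedekindStatement baseChangeStatement ratDedekindStatement hD
    Fermat.Agent.H1.MW.cuspModularStatement

end Fermat.Agent.H39.MW

end
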