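import Fermat.Agent.H39.MW.ModStatements

/-!
# P-MW / Block E (row 883 MW-E-ASM, helper39): the pole filtration `ratPole`, Laurent level

Elementary facts on `W m = ratPole P₀ m` which use no geometry: monotonicity, multiplicativity,
exhaustion, the "one more coefficient" step.
-/

set_option autoImplicit false

noncomputable section

open AlgebraicCurve ModularCurve TensorProduct Module

namespace Fermat.Agent.H39.MW

open Fermat.Agent.H92.MW

/-! ## Laurent series -/

theorem laurent_coeff_mul_eq_zero {A : Type*} [CommRing A] {x y : LaurentSeries A} {a b : ℤ}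
    (hx : ∀ k : ℤ, k < a → x.coeff k = 0) (hy : ∀ k : ℤ, k < b → y.coeff k = 0) :
    ∀ k : ℤ, k < a + b → (x * y).coeff k = 0 := by
  intro k hk
  rw [HahnSeries.coeff_mul]
  apply Finset.sum_eq_zero
  intro ij hij
  rw [Finset.mem_antidiagonal] at hij
  obtain ⟨-, -, h3⟩ := hij
  by_cases hi : ij.1 < a
  · rw [hx _ hi, zero_mul]
  · have hj : ij.2 < b := by omega
    rw [hy _ hj, mul_zero]

theorem laurent_le_order {A : Type*} [CommRing A] {x : LaurentSeries A} (hx0 : x ≠ 0) {a : ℤ}
    (hx : ∀ k : ℤ, k < a → x.coeff k = 0) : a ≤ x.order := by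
  by_contra hlt
  rw [not_le] at hlt
  exact hx0 (HahnSeries.coeff_order_eq_zero.mp (hx _ hlt))

theorem laurent_coeff_eq_zero_of_le_order {A : Type*} [CommRing A] {x : LaurentSeries A} {a : ℤ}
    (hx : x = 0 ∨ a ≤ x.order) : ∀ k : ℤ, k < a → x.coeff k = 0 := by
  intro k hk
  rcases hx with rfl | hx
  · rfl
  · exact HahnSeries.coeff_eq_zero_of_lt_order (lt_of_lt_of_le hk hx)

/-! ## General linear algebra -/

/-- Cutting a finite-dimensional subspace by one linear functional lowers the dimension by at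
most one. -/
theorem finrank_le_finrank_inf_ker_add_one {k M : Type*} [Field k] [AddCommGroup M] [Module k M]
    (V : Submodule k M) [Module.Finite k V] (c : M →ₗ[k] k) :
    finrank k V ≤ finrank k ↥(V ⊓ LinearMap.ker c) + 1 := by
  have h1 := LinearMap.finrank_range_add_finrank_ker (c.domRestrict V)
  have h2 : finrank k ↥(LinearMap.range (c.domRestrict V)) ≤ 1 := by
    have := Submodule.finrank_le (LinearMap.range (c.domRestrict V))
    rwa [Module.finrank_self] at this
  have h3 : finrank k ↥(LinearMap.ker (c.domRestrict V)) = finrank k ↥(V ⊓ LinearMap.ker c) := by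
    have h : LinearMap.ker (c.domRestrict V) =
        Submodule.comap V.subtype (V ⊓ LinearMap.ker c) := by
      ext x
      simp [LinearMap.mem_ker]
    rw [h]
    exact (Submodule.comapSubtypeEquivOfLe inf_le_left).finrank_eq
  omega

/-! ## The filtration -/

section Filtration

variable {F₀ : IntermediateField ℚ (LaurentSeries ℚ)} (P₀ : Place QQbar (FB F₀))

theorem ratPole_mono : Monotone (ratPole P₀) := by
  intro m m' h f hf k hk
  refine hf k ?_
  have : (m : ℤ) ≤ (m' : ℤ) := by exact_mod_cast h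
  omega

theorem ratPole_mul (m m' : ℕ) : ratPole P₀ m * ratPole P₀ m' ≤ ratPole P₀ (m + m') := by
  rw [Submodule.mul_le]
  intro f hf g hg k hk
  have h := laurent_coeff_mul_eq_zero (x := ((f : ↥F₀) : LaurentSeries ℚ))
    (y := ((g : ↥F₀) : LaurentSeries ℚ)) hf hg k (by push_cast at hk; omega)
  exact h

theorem ratPole_exhaust (f : ↥(ratHolo P₀)) : ∃ m : ℕ, f ∈ ratPole P₀ m := by
  by_cases hf : ((f : ↥F₀) : LaurentSeries ℚ) = 0
  · refine ⟨0, fun k _ => ?_⟩
    rw [hf]
    rfl
  · refine ⟨(-(((f : ↥F₀) : LaurentSeries ℚ)).order).toNat, fun k hk => ?_⟩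
    apply HahnSeries.coeff_eq_zero_of_lt_order
    have := Int.self_le_toNat (-(((f : ↥F₀) : LaurentSeries ℚ)).order)
    omega

/-- The coefficient of `q ^ k`, as a linear functional on `R`. -/
def ratCoeff (k : ℤ) : ↥(ratHolo P₀) →ₗ[ℚ] ℚ where
  toFun f := (((f : ↥F₀) : LaurentSeries ℚ)).coeff k
  map_add' _ _ := rfl
  map_smul' c f := by
    show (c • ((f : ↥F₀) : LaurentSeries ℚ)).coeff k = _
    rw [HahnSeries.coeff_smul]
    rfl

theorem ratCoeff_apply (k : ℤ) (f : ↥(ratHolo P₀)) :
    ratCoeff P₀ k f = (((f : ↥F₀) : LaurentSeries ℚ)).coeff k := rfl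

theorem ratPole_eq_inf_ker (m : ℕ) :
    ratPole P₀ m = ratPole P₀ (m + 1) ⊓ LinearMap.ker (ratCoeff P₀ (-((m : ℤ) + 1))) := by
  ext f
  rw [Submodule.mem_inf, LinearMap.mem_ker, ratCoeff_apply]
  constructor
  · intro hf
    exact ⟨ratPole_mono P₀ (Nat.le_succ m) hf, hf _ (by omega)⟩
  · rintro ⟨hf1, hf2⟩ k hk
    by_cases hk' : k = -((m : ℤ) + 1)
    · rw [hk']
      exact hf2
    · exact hf1 k (by push_cast; omega)

theorem ratPole_step (m : ℕ) [Module.Finite ℚ ↥(ratPole P₀ (m + 1))] :
    finrank ℚ ↥(ratPole P₀ (m + 1)) ≤ finrank ℚ ↥(ratPole P₀ m) + 1 := by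
  have h := finrank_le_finrank_inf_ker_add_one (ratPole P₀ (m + 1))
    (ratCoeff P₀ (-((m : ℤ) + 1)))
  rwa [← ratPole_eq_inf_ker] at h

end Filtration

end Fermat.Agent.H39.MW

end
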