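import Fermat.Agent.H39.MW.ModFinal
import Fermat.Agent.H53.MWE.DictCuspFinal

/-!
# P-MW / Block E (row 697 MW-MOD): `ModularDatumStatement`, UNCONDITIONAL

`modularDatum : Fermat.Agent.H92.MW.ModularDatumStatement`: for every prime `N ≥ 5` the curve
`X₀(N)` carries an `MWDatum` (`R` = functions of `modularFunctionFieldFull N` regular outside
the cusp `∞`, `W m` = pole order `≤ m` at `∞`) and `Cl(R) ≃ J₀(N)(ℚ)`.

Leaves: `FiniteOverStatement` (helper47), `FixedStatement` (helper80), `DescentStatement`
(helper27), `HoloDedekindStatement` (helper77), `BaseChangeStatement` (helper50),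
`RatDedekindStatement` (helper2), `CuspModularStatement` (helper1), Riemann-Roch for ideals
(helper58), `DictionaryStatement` (helper53); assembly: helper39.
-/

set_option autoImplicit false

noncomputable section

namespace Fermat.Agent.H39.MW

open Fermat.Agent.H92.MW

/-- **Block E.** -/
theorem modularDatum : ModularDatumStatement :=
  modularDatum_of_dictionary Fermat.Agent.H53.dictionaryStatement

end Fermat.Agent.H39.MW

end
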